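import Fermat.Agent.CFT.Local.NormIndex

/-!
# Residue field and inertia

The residue field of a finite extension `E` of `ℚ_[q]` is finite of characteristic `q`; the
inertia group is the kernel of the Galois action on it.
-/

set_option autoImplicit false

noncomputable section

namespace Fermat.Agent.CFT.Local

open Module

variable {q : ℕ} [Fact q.Prime] (E : IntermediateField ℚ_[q] (PadicAlgCl q))

/-- The ring of integers of `E`, as the closed unit ball. -/
def intRing : Subring E where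
  carrier := {x | ‖x‖ ≤ 1}
  zero_mem' := by simp
  one_mem' := by simp
  add_mem' {a b} ha hb := (IsUltrametricDist.norm_add_le_max a b).trans (max_le ha hb)
  neg_mem' {a} ha := by simpa using ha
  mul_mem' {a b} ha hb := by
    show ‖a * b‖ ≤ 1
    rw [norm_mul]; exact mul_le_one₀ ha (norm_nonneg _) hb

theorem mem_intRing {x : E} : x ∈ intRing E ↔ ‖x‖ ≤ 1 := Iff.rfl

/-- The open unit ball. -/
def maxIdeal : Ideal (intRing E) where
  carrier := {x | ‖(x : E)‖ < 1}
  zero_mem' := by simp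
  add_mem' {a b} ha hb := (IsUltrametricDist.norm_add_le_max (a : E) b).trans_lt (max_lt ha hb)
  smul_mem' c x hx := by
    show ‖((c : E) * (x : E))‖ < 1
    rw [norm_mul]
    exact (mul_le_of_le_one_left (norm_nonneg _) c.2).trans_lt hx

theorem mem_maxIdeal {x : intRing E} : x ∈ maxIdeal E ↔ ‖(x : E)‖ < 1 := Iff.rfl

instance maxIdeal_isMaximal : (maxIdeal E).IsMaximal := by
  refine Ideal.isMaximal_iff.mpr ⟨by simp [mem_maxIdeal], fun J x _ hx hxJ => ?_⟩
  rw [mem_maxIdeal, not_lt] at hx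
  have h1 : ‖(x : E)‖ = 1 := le_antisymm x.2 hx
  have h2 : (x : E)⁻¹ ∈ intRing E := by rw [mem_intRing, norm_inv, h1, inv_one]
  have h3 : (1 : intRing E) = ⟨_, h2⟩ * x :=
    Subtype.ext (inv_mul_cancel₀ (norm_pos_iff.mp (h1 ▸ one_pos))).symm
  rw [h3]
  exact J.mul_mem_left _ hxJ

/-- The residue field. -/
abbrev ResField := intRing E ⧸ maxIdeal E

instance resFieldField : Field (ResField E) := Ideal.Quotient.field (maxIdeal E)

/-- The reduction map. -/
def resMap : intRing E →+* ResField E := Ideal.Quotient.mk (maxIdeal E)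

/-- Reduction is surjective. -/
theorem resMap_surjective : Function.Surjective (resMap E) := Ideal.Quotient.mk_surjective

theorem resMap_eq_zero_iff {x : intRing E} : resMap E x = 0 ↔ ‖(x : E)‖ < 1 :=
  Ideal.Quotient.eq_zero_iff_mem.trans (mem_maxIdeal E)

/-- Integral elements have the same residue iff their difference has norm below `1`. -/
theorem resMap_eq_iff {x y : intRing E} : resMap E x = resMap E y ↔ ‖(x : E) - y‖ < 1 :=
  (Ideal.Quotient.mk_eq_mk_iff_sub_mem x y).trans (mem_maxIdeal E)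

theorem norm_natCast_self_lt_one : ‖(q : E)‖ < 1 := by
  rw [← map_natCast (algebraMap ℚ_[q] E) q, norm_algebraMap']
  exact Padic.norm_p_lt_one

instance resField_charP : CharP (ResField E) q := by
  refine (CharP.charP_iff_prime_eq_zero (Fact.out : q.Prime)).mpr ?_
  rw [← map_natCast (resMap E), resMap_eq_zero_iff, Subring.coe_natCast]
  exact norm_natCast_self_lt_one E

variable [FiniteDimensional ℚ_[q] E]

instance resField_finite : Finite (ResField E) := by
  classical
  let S : Set E := Metric.closedBall 0 1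
  obtain ⟨t, ht, hcov⟩ := (isCompact_closedBall (0 : E) 1).elim_nhds_subcover
    (fun x => Metric.ball x 1) fun x _ => Metric.ball_mem_nhds x one_pos
  have hmem : ∀ x : t, (x : E) ∈ intRing E := fun x => by
    simpa [mem_intRing] using ht x x.2
  refine Finite.of_surjective (fun x : t => resMap E ⟨x, hmem x⟩) fun c => ?_
  obtain ⟨y, rfl⟩ := resMap_surjective E c
  have hy := hcov (show (y : E) ∈ Metric.closedBall (0 : E) 1 by
    rw [mem_closedBall_zero_iff]; exact y.2)
  simp only [Set.mem_iUnion] at hy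
  obtain ⟨x, hx, hxy⟩ := hy
  refine ⟨⟨x, hx⟩, (resMap_eq_iff E).mpr ?_⟩
  rw [norm_sub_rev, ← dist_eq_norm]
  exact hxy

instance resFieldAlgebra : Algebra (ZMod q) (ResField E) := ZMod.algebra _ q

instance resField_isCyclic : IsCyclic (ResField E ≃ₐ[ZMod q] ResField E) := inferInstance

section Galois

variable {E}

omit [FiniteDimensional ℚ_[q] ↥E] in
theorem norm_algEquiv_le {x : E} (σ : E ≃ₐ[ℚ_[q]] E) (hx : x ∈ intRing E) :
    σ x ∈ intRing E := by
  rw [mem_intRing, norm_algEquiv]; exact hx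

/-- The action of an automorphism on the integers. -/
def galInt (σ : E ≃ₐ[ℚ_[q]] E) : intRing E →+* intRing E :=
  ((σ : E →+* E).comp (intRing E).subtype).codRestrict (intRing E) fun x =>
    norm_algEquiv_le σ x.2

omit [FiniteDimensional ℚ_[q] ↥E] in
@[simp]
theorem coe_galInt (σ : E ≃ₐ[ℚ_[q]] E) (x : intRing E) : (galInt σ x : E) = σ (x : E) := rfl

/-- The action of an automorphism on the residue field, as a ring endomorphism. -/
def resEnd (σ : E ≃ₐ[ℚ_[q]] E) : ResField E →+* ResField E :=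
  Ideal.Quotient.lift _ ((resMap E).comp (galInt σ)) fun x hx => by
    rw [RingHom.comp_apply, resMap_eq_zero_iff, coe_galInt, norm_algEquiv]
    exact hx

omit [FiniteDimensional ℚ_[q] ↥E] in
theorem resEnd_mul (σ τ : E ≃ₐ[ℚ_[q]] E) (c : ResField E) :
    resEnd (σ * τ) c = resEnd σ (resEnd τ c) := by
  obtain ⟨x, rfl⟩ := resMap_surjective E c
  rfl

omit [FiniteDimensional ℚ_[q] ↥E] in
theorem resEnd_one (c : ResField E) : resEnd (1 : E ≃ₐ[ℚ_[q]] E) c = c := by
  obtain ⟨x, rfl⟩ := resMap_surjective E c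
  rfl

variable (E) in
/-- The action on the residue field. -/
def resAut : (E ≃ₐ[ℚ_[q]] E) →* (ResField E ≃ₐ[ZMod q] ResField E) where
  toFun σ := AlgEquiv.ofRingEquiv (f :=
    { resEnd σ with
      invFun := resEnd σ⁻¹
      left_inv := fun c => by
        show resEnd σ⁻¹ (resEnd σ c) = c
        rw [← resEnd_mul, inv_mul_cancel, resEnd_one]
      right_inv := fun c => by
        show resEnd σ (resEnd σ⁻¹ c) = c
        rw [← resEnd_mul, mul_inv_cancel, resEnd_one] }) fun r => by
    exact RingHom.congr_fun (Subsingleton.elim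
      ((resEnd σ).comp (algebraMap (ZMod q) (ResField E))) (algebraMap (ZMod q) (ResField E))) r
  map_one' := AlgEquiv.ext resEnd_one
  map_mul' σ τ := AlgEquiv.ext (resEnd_mul σ τ)

omit [FiniteDimensional ℚ_[q] ↥E] in
/-- Reduction commutes with the Galois action. -/
theorem resAut_resMap (σ : E ≃ₐ[ℚ_[q]] E) (x : intRing E) :
    resAut E σ (resMap E x) = resMap E (galInt σ x) := rfl

variable (E) in
/-- The inertia group. -/
def inertia : Subgroup (E ≃ₐ[ℚ_[q]] E) := (resAut E).ker

omit [FiniteDimensional ℚ_[q] ↥E] in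
/-- Inertia consists of the automorphisms moving integral elements by elements of norm below
`1`. -/
theorem mem_inertia {σ : E ≃ₐ[ℚ_[q]] E} :
    σ ∈ inertia E ↔ ∀ x : E, ‖x‖ ≤ 1 → ‖σ x - x‖ < 1 := by
  rw [inertia, MonoidHom.mem_ker]
  constructor
  · intro h x hx
    have := DFunLike.congr_fun h (resMap E ⟨x, hx⟩)
    rw [resAut_resMap, AlgEquiv.one_apply] at this
    rw [resMap_eq_iff, coe_galInt] at this
    exact this
  · intro h
    refine AlgEquiv.ext fun c => ?_
    obtain ⟨x, rfl⟩ := resMap_surjective E c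
    rw [resAut_resMap, AlgEquiv.one_apply]
    rw [resMap_eq_iff, coe_galInt]
    exact h _ x.2

/-- A subgroup meeting inertia trivially is cyclic. -/
theorem isCyclic_of_inf_inertia_eq_bot (H : Subgroup (E ≃ₐ[ℚ_[q]] E)) (h : H ⊓ inertia E = ⊥) :
    IsCyclic H := by
  refine isCyclic_of_injective ((resAut E).comp H.subtype) fun a b hab => ?_
  have h1 : ((a⁻¹ * b : H) : E ≃ₐ[ℚ_[q]] E) ∈ H ⊓ inertia E :=
    ⟨(a⁻¹ * b).2, show resAut E ((a : E ≃ₐ[ℚ_[q]] E)⁻¹ * b) = 1 by
      rw [map_mul, map_inv, inv_mul_eq_one]; exact hab⟩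
  rw [h, Subgroup.mem_bot] at h1
  exact inv_mul_eq_one.mp (Subtype.ext h1)

/-- An unramified group fixes a uniformiser. -/
theorem exists_fixed_ord_eq_one (H : Subgroup (E ≃ₐ[ℚ_[q]] E)) (hH : H ⊓ inertia E = ⊥) :
    ∃ x ∈ fixedUnits H, ord E x = Multiplicative.ofAdd 1 := by
  classical
  have : Fintype H := Fintype.ofFinite H
  obtain ⟨π, hπ⟩ := ord_surjective E (Multiplicative.ofAdd 1)
  -- `u h` is the unit `h π / π`.
  have hu : ∀ h : H, (((h : E ≃ₐ[ℚ_[q]] E) (π : E)) / (π : E)) ∈ intRing E := fun h => by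
    rw [mem_intRing, norm_div, norm_algEquiv, div_self (norm_ne_zero_iff.mpr π.ne_zero)]
  let u : H → intRing E := fun h => ⟨_, hu h⟩
  let χ : H → (intRing E →* ResField E) := fun h =>
    ((resMap E).comp (galInt (h : E ≃ₐ[ℚ_[q]] E))).toMonoidHom
  have hχ : Function.Injective χ := fun a b hab => by
    have e : resAut E (a : E ≃ₐ[ℚ_[q]] E) = resAut E (b : E ≃ₐ[ℚ_[q]] E) := AlgEquiv.ext fun c => by
      obtain ⟨x, rfl⟩ := resMap_surjective E c
      exact DFunLike.congr_fun hab x
    have h1 : ((a⁻¹ * b : H) : E ≃ₐ[ℚ_[q]] E) ∈ H ⊓ inertia E :=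
      ⟨(a⁻¹ * b).2, show resAut E ((a : E ≃ₐ[ℚ_[q]] E)⁻¹ * b) = 1 by
        rw [map_mul, map_inv, inv_mul_eq_one]; exact e⟩
    rw [hH, Subgroup.mem_bot] at h1
    exact inv_mul_eq_one.mp (Subtype.ext h1)
  -- As the residue actions are distinct, some resolvent `S` is a unit.
  have hli := (linearIndependent_monoidHom (intRing E) (ResField E)).comp χ hχ
  obtain ⟨a, ha⟩ : ∃ a : intRing E,
      ∑ h : H, resMap E (u h) * resMap E (galInt (h : E ≃ₐ[ℚ_[q]] E) a) ≠ 0 := by
    by_contra hall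
    simp only [not_exists, not_not] at hall
    have h0 := Fintype.linearIndependent_iff.mp hli (fun h => resMap E (u h)) (by
      funext a
      simp only [Finset.sum_apply, Pi.smul_apply, smul_eq_mul, Pi.zero_apply]
      exact hall a) 1
    rw [resMap_eq_zero_iff] at h0
    refine absurd h0 (le_of_eq ?_).not_gt
    show (1 : ℝ) = ‖((1 : E ≃ₐ[ℚ_[q]] E) (π : E)) / (π : E)‖
    rw [AlgEquiv.one_apply, div_self π.ne_zero, norm_one]
  simp only [← map_mul, ← map_sum] at ha
  rw [Ne, resMap_eq_zero_iff, not_lt] at ha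
  set S : intRing E := ∑ h : H, u h * galInt (h : E ≃ₐ[ℚ_[q]] E) a with hS
  have hSn : ‖(S : E)‖ = 1 := le_antisymm S.2 ha
  -- Then `π S` is a trace, hence fixed, of order one.
  have hsum : (π : E) * (S : E) = ∑ h : H, (h : E ≃ₐ[ℚ_[q]] E) ((π : E) * (a : E)) := by
    rw [hS, AddSubmonoidClass.coe_finsetSum, Finset.mul_sum]
    refine Finset.sum_congr rfl fun h _ => ?_
    show (π : E) * ((h : E ≃ₐ[ℚ_[q]] E) (π : E) / (π : E) * (h : E ≃ₐ[ℚ_[q]] E) (a : E)) = _
    rw [map_mul, ← mul_assoc, mul_div_cancel₀ _ π.ne_zero]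
  have hS0 : (S : E) ≠ 0 := norm_pos_iff.mp (hSn ▸ one_pos)
  refine ⟨π * Units.mk0 (S : E) hS0, fun g => Units.ext ?_, ?_⟩
  · show (g : E ≃ₐ[ℚ_[q]] E) ((π : E) * (S : E)) = (π : E) * (S : E)
    rw [hsum, map_sum]
    exact Fintype.sum_equiv (Equiv.mulLeft g) _ _ fun h => rfl
  · rw [map_mul, hπ, (ord_eq_one_iff E).mpr ((mem_unitGroup E).mpr (by exact hSn)), mul_one]

end Galois

end Fermat.Agent.CFT.Local
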