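import Fermat.Agent.CFT.Coh.H2
import Fermat.Agent.CFT.Idele.Step
import Fermat.Agent.CFT.Idele.Bridge
import Fermat.Agent.CFT.Local.Unramified

/-!
# The class field axioms for the multiplicative group of a local field

For a finite normal `E / ℚ_[q]` and a step `K < H` of index `p` in its Galois group, the fixed
elements of `H` modulo norms from those of `K` have order `p`.
-/

set_option autoImplicit false

noncomputable section

namespace Fermat.Agent.CFT

open groupCohomology

/-- A step satisfies Hilbert 90 if the larger group has trivial `H¹`. -/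
theorem IsStep.exists_sub_eq {G A : Type*} [Group G] [AddCommGroup A] [DistribMulAction G A]
    {p : ℕ} [hp : Fact p.Prime] [Finite G] {H K : Subgroup G} {g : G} (hs : IsStep p H K g)
    (h1 : H1Zero H A) (w : A) (hw : ∀ k ∈ K, k • w = w) (hN : stepNorm p g w = 0) :
    ∃ b : A, (∀ k ∈ K, k • b = b) ∧ g • b - b = w := by
  -- Composed with a character to `ℤ/p` cutting out the step, the partial norms of `w` form a
  -- cocycle on `H`, since the whole norm vanishes.
  obtain ⟨χ, -, hker, hg⟩ := hs.exists_char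
  obtain ⟨y, hy⟩ := h1 (fun a => stepNorm (Multiplicative.toAdd (χ a)).val g w) fun a b => by
    have h := coboundary_stepNorm_val hs χ hker hg w hw a b
    rw [hN, carry, smul_zero] at h
    exact (sub_eq_zero.mp (Eq.trans (by abel) h)).symm
  -- A primitive of it is fixed by `K`, and its difference at `g` is `w`.
  refine ⟨y, fun k hk => ?_, ?_⟩
  · have h := hy ⟨k, hs.le hk⟩
    have h0 : χ ⟨k, hs.le hk⟩ = 1 := by
      rw [← MonoidHom.mem_ker, hker, Subgroup.mem_subgroupOf]; exact hk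
    simp only [h0, toAdd_one, ZMod.val_zero, stepNorm, Finset.sum_range_zero, sub_eq_zero] at h
    exact h
  · have h := hy ⟨g, hs.mem⟩
    simp only [hg, toAdd_ofAdd, ZMod.val_one, stepNorm, Finset.sum_range_one, pow_zero,
      one_smul] at h
    exact h

end Fermat.Agent.CFT

namespace Fermat.Agent.CFT.Local

open groupCohomology Fermat.Agent.CFT.Idele

variable {q : ℕ} [Fact q.Prime] {E : IntermediateField ℚ_[q] (PadicAlgCl q)}

theorem toMul_sum_units (s : Finset ℕ) (f : ℕ → Additive Eˣ) :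
    (∑ i ∈ s, f i).toMul = ∏ i ∈ s, (f i).toMul := toMul_sum s f

variable [FiniteDimensional ℚ_[q] E] [Normal ℚ_[q] E]
  {p : ℕ} [hp : Fact p.Prime] {H K : Subgroup (E ≃ₐ[ℚ_[q]] E)} {g : E ≃ₐ[ℚ_[q]] E}

/-- The local norm index of a step is `p`. -/
theorem relIndex_nStep (hs : CFT.IsStep p H K g) (st : Step p H K g) :
    (nStep Eˣ st).range.relIndex (dStep Eˣ st).ker = p := by
  classical
  have : Fintype H := Fintype.ofFinite H
  have : Fintype K := Fintype.ofFinite K
  set A := fixedBy K Eˣ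
  set d := dStep Eˣ st
  set N := nStep Eˣ st
  set U := subFixed K (unitGroup E)
  have hUst : ∀ σ : E ≃ₐ[ℚ_[q]] E, ∀ x ∈ unitGroup E, σ • x ∈ unitGroup E :=
    fun σ x hx => (smul_mem_unitGroup_iff σ x).2 hx
  have hUd : U.map d ≤ U := map_dStep_le st hUst
  have hUN : U.map N ≤ U := map_nStep_le st hUst
  obtain ⟨Λ⟩ := exists_normalLattice (E := E)
  set D := deepUnits Λ.good 0
  have hD : ∀ σ : E ≃ₐ[ℚ_[q]] E, ∀ x ∈ D, σ • x ∈ D := fun σ x hx => Λ.smul_mem_deepUnits hx
  have hok : ∀ (S : Subgroup (E ≃ₐ[ℚ_[q]] E)) [Fintype S], NormOK S D := fun S _ =>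
    ⟨fun x hx hfix => Λ.exists_normHom_eq S hx hfix, fun x hx hN => Λ.exists_augHom_eq S hx hN⟩
  obtain ⟨t0, t1⟩ := ind0Sub_of_normOK st (D := D) hD (hok H) (hok K)
  have hidx : (subFixed K D).relIndex U ≠ 0 := by
    show (D.comap A.subtype).relIndex _ ≠ 0
    rw [Subgroup.relIndex_comap]
    exact fun h => relIndex_deepUnits_ne_zero Λ.good 0
      (Subgroup.relIndex_eq_zero_of_le_right (by rintro _ ⟨x, hx, rfl⟩; exact hx) h)
  obtain ⟨hU, hU0⟩ := ind0Sub_eq_of_triv d N hUd hUN (dStep_nStep st) (nStep_dStep st)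
    (B := subFixed K D) (fun x hx => deepUnits_le_unitGroup Λ.good hx)
    (map_dStep_le st hD) (map_nStep_le st hD) hidx t0 t1
  -- Hilbert 90
  have h90 : ind0 N d = 1 := by
    rw [ind0, Subgroup.relIndex_eq_one]
    intro x hx
    have hN : CFT.stepNorm p g (Additive.ofMul (x : Eˣ)) = 0 := by
      refine Additive.toMul.injective ?_
      rw [CFT.stepNorm, toMul_sum_units]
      exact congrArg Subtype.val (MonoidHom.mem_ker.1 hx)
    obtain ⟨b, hb, hgb⟩ := hs.exists_sub_eq (h1Zero_units H) (Additive.ofMul (x : Eˣ))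
      (fun k hk => congrArg Additive.ofMul (x.2 k hk)) hN
    exact ⟨⟨b.toMul, fun k hk => congrArg Additive.toMul (hb k hk)⟩,
      Subtype.ext (congrArg Additive.toMul hgb)⟩
  -- the valuation
  set φ : A →* Multiplicative ℤ := (ord E).comp A.subtype
  have hkerφ : φ.ker = U := by
    ext x
    exact ord_eq_one_iff E
  have hφd : ∀ x : A, φ (d x) = 1 := fun x => by
    show ord E (g • (x : Eˣ) / x) = 1
    rw [map_div, ord_smul_unit, div_self']
  have hφN : ∀ x : A, φ (N x) = φ x ^ p := fun x => by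
    show ord E (∏ i ∈ Finset.range p, g ^ i • (x : Eˣ)) = ord E (x : Eˣ) ^ p
    simp only [map_prod, ord_smul_unit, Finset.prod_const, Finset.card_range]
  have hQ1 : ind0Quot N d U = 1 := by
    rw [ind0Quot, Subgroup.relIndex_eq_one]
    intro x hx
    refine Subgroup.mem_sup_right ?_
    rw [Subgroup.mem_comap, ← hkerφ, MonoidHom.mem_ker, hφN] at hx
    rw [← hkerφ, MonoidHom.mem_ker]
    exact (pow_eq_one_iff_left hp.out.ne_zero).mp hx
  have hQp : ind0Quot d N U = p := by
    have htop : U.comap d = ⊤ := (Subgroup.eq_top_iff' _).2 fun x => by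
      rw [Subgroup.mem_comap, ← hkerφ]
      exact hφd x
    obtain ⟨⟨m, hm⟩, hgen⟩ := IsCyclic.exists_generator (α := φ.range)
    set ψ : Multiplicative ℤ →* Multiplicative ℤ := zpowersHom _ m with hψ
    have hrange : φ.range = (⊤ : Subgroup (Multiplicative ℤ)).map ψ := by
      refine le_antisymm (fun t ht => ?_) ?_
      · obtain ⟨k, hk⟩ := hgen ⟨t, ht⟩
        exact ⟨Multiplicative.ofAdd k, trivial, congrArg Subtype.val hk⟩
      · rintro _ ⟨k, -, rfl⟩
        exact φ.range.zpow_mem hm _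
    have hq0 : (q : E) ≠ 0 := Nat.cast_ne_zero.mpr (Fact.out : q.Prime).ne_zero
    have hm1 : Multiplicative.toAdd m ≠ 0 := fun h0 => by
      have hfix : Units.mk0 (q : E) hq0 ∈ A := fun σ _ => Units.ext (map_natCast σ q)
      have hmem : φ ⟨_, hfix⟩ ∈ φ.range := ⟨_, rfl⟩
      rw [hrange] at hmem
      obtain ⟨k, -, hk⟩ := hmem
      rw [hψ, zpowersHom_apply, show m = 1 from toAdd_eq_zero.mp h0, one_zpow] at hk
      have h1 : ordQ E (Units.mk0 (q : E) hq0) = 1 := (ord_eq_one_iff E).mp hk.symm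
      rw [ordQ_natCast_self] at h1
      exact Module.finrank_pos.ne' (Int.natCast_eq_zero.mp (congrArg Multiplicative.toAdd h1))
    have hψinj : Function.Injective ψ := fun a b hab => by
      have := congrArg Multiplicative.toAdd hab
      simp only [hψ, zpowersHom_apply, toAdd_zpow, smul_eq_mul] at this
      exact Multiplicative.toAdd.injective (mul_right_cancel₀ hm1 this)
    have himg : N.range.map φ =
        ((powMonoidHom p : Multiplicative ℤ →* Multiplicative ℤ).range).map ψ := by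
      ext t
      constructor
      · rintro ⟨_, ⟨x, rfl⟩, rfl⟩
        obtain ⟨k, -, hk⟩ := hrange.le (⟨x, rfl⟩ : φ x ∈ φ.range)
        exact ⟨k ^ p, ⟨k, rfl⟩, by rw [map_pow, hk, hφN]⟩
      · rintro ⟨_, ⟨k, rfl⟩, rfl⟩
        obtain ⟨x, hx⟩ := hrange.ge (⟨k, trivial, rfl⟩ : ψ k ∈ Subgroup.map ψ ⊤)
        exact ⟨N x, ⟨x, rfl⟩, by rw [hφN, hx, powMonoidHom_apply, map_pow]⟩
    have hi := Subgroup.relIndex_map_map φ N.range ⊤
    rw [top_sup_eq, Subgroup.relIndex_top_right, ← MonoidHom.range_eq_map, himg, hrange,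
      Subgroup.relIndex_map_map_of_injective _ _ hψinj, Subgroup.relIndex_top_right,
      relIndex_normHom_range.index_range_powMonoidHom_multiplicative_int] at hi
    rw [ind0Quot, htop, Subgroup.relIndex_top_right, ← hkerφ]
    exact hi.symm
  have h := herbrand_mul d N (dStep_nStep st) (nStep_dStep st) U hUd hUN
  rw [hQ1, hQp, h90, hU, mul_one, one_mul, mul_comm p] at h
  exact (mul_left_cancel₀ hU0 h).symm


variable (q E p) in
/-- The step axioms for the multiplicative group of a local field. -/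
theorem stepAxioms_local : CFT.StepAxioms p (E ≃ₐ[ℚ_[q]] E) (Additive Eˣ) := by
  refine ⟨fun H K g hs a ha hN => hs.exists_sub_eq (h1Zero_units H) a ha hN, fun H K g hs => ?_⟩
  have st : Step p H K g :=
    Step.of_isPGroup hs.le hs.mem hs.notMem hs.isPGroup hs.relIndex
  set d := dStep Eˣ st
  set N := nStep Eˣ st
  set Q := d.ker ⧸ N.range.subgroupOf d.ker
  have hcard : Nat.card Q = p := relIndex_nStep hs st
  have : Finite Q := Nat.finite_of_card_ne_zero (hcard ▸ hp.out.ne_zero)
  have : Nontrivial Q := Finite.one_lt_card_iff_nontrivial.mp (hcard ▸ hp.out.one_lt)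
  obtain ⟨y, hy⟩ := exists_ne (1 : Q)
  obtain ⟨x₀, rfl⟩ := QuotientGroup.mk_surjective y
  have hmemH : ∀ z : d.ker, ((z : fixedBy K Eˣ) : Eˣ) ∈ fixedBy H Eˣ := fun z =>
    st.mem_fixedBy_iff.2 ⟨(z : fixedBy K Eˣ).2, (mem_ker_dStep st).1 z.2⟩
  refine ⟨Additive.ofMul ((x₀ : fixedBy K Eˣ) : Eˣ), fun h hh =>
    congrArg Additive.ofMul (hmemH x₀ h hh), fun x hx => ?_⟩
  have hxK : x.toMul ∈ fixedBy K Eˣ := fun k hk => congrArg Additive.toMul (hx k (st.le hk))
  set z : d.ker := ⟨⟨x.toMul, hxK⟩, (mem_ker_dStep st).2 (congrArg Additive.toMul (hx g st.mem))⟩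
  have hmem : (QuotientGroup.mk z : Q) ∈ Subgroup.zpowers (QuotientGroup.mk x₀ : Q) := by
    rw [zpowers_eq_top_of_prime_card hcard hy]
    trivial
  obtain ⟨m, hm⟩ := hmem
  obtain ⟨b, hb⟩ := Subgroup.mem_subgroupOf.1
    (QuotientGroup.eq.1 (hm : ((x₀ ^ m : d.ker) : Q) = (z : Q)))
  refine ⟨m, Additive.ofMul (b : Eˣ), fun k hk => congrArg Additive.ofMul (b.2 k hk),
    Additive.toMul.injective ?_⟩
  have e := congrArg Subtype.val hb
  rw [toMul_add, CFT.stepNorm, toMul_sum_units, toMul_zsmul]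
  simp only [Subgroup.coe_mul, InvMemClass.coe_inv, SubgroupClass.coe_zpow, nStep_coe, N, z] at e
  show x.toMul = ((x₀ : fixedBy K Eˣ) : Eˣ) ^ m * ∏ i ∈ Finset.range p, g ^ i • (b : Eˣ)
  rw [e, mul_inv_cancel_left]

end Fermat.Agent.CFT.Local
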