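import Fermat.Agent.CFT.Coh.Existence
import Fermat.Agent.CFT.Local.StepAxioms
import Mathlib.RingTheory.RootsOfUnity.AlgebraicallyClosed

/-!
# The fundamental class of a local field

For a finite normal `E / ℚ_[q]` the class comes from the unramified extension generated by the
roots of unity of order `q ^ n - 1`, with `n` the order of a Sylow `p`-subgroup.

The main theorem is `exists_fundamental_local`.
-/

set_option autoImplicit false

noncomputable section

namespace Fermat.Agent.CFT.Local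

open groupCohomology Fermat.Agent.CFT.Idele Module

variable {q : ℕ} [Fact q.Prime]

/-! ### Restriction -/

section Restriction

variable {E E' : IntermediateField ℚ_[q] (PadicAlgCl q)} [Normal ℚ_[q] E] [Normal ℚ_[q] E']

/-- Restriction of automorphisms to a smaller normal field. -/
def resLocFun (σ : E' ≃ₐ[ℚ_[q]] E') : E ≃ₐ[ℚ_[q]] E :=
  AlgEquiv.restrictNormalHom E (σ.liftNormal (PadicAlgCl q))

omit [Normal ℚ_[q] E'] in
theorem coe_resLocFun (h : E ≤ E') (σ : E' ≃ₐ[ℚ_[q]] E') (x : E) :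
    ((resLocFun σ x : E) : PadicAlgCl q) =
      ((σ (IntermediateField.inclusion h x) : E') : PadicAlgCl q) :=
  (AlgEquiv.restrictNormal_commutes _ E x).trans
    (AlgEquiv.liftNormal_commutes σ (PadicAlgCl q) (IntermediateField.inclusion h x))

variable (h : E ≤ E')

/-- Restriction of automorphisms to a smaller normal field. -/
def resLoc : (E' ≃ₐ[ℚ_[q]] E') →* (E ≃ₐ[ℚ_[q]] E) :=
  MonoidHom.mk' resLocFun fun σ τ => AlgEquiv.ext fun x => Subtype.ext (by
    rw [coe_resLocFun h, AlgEquiv.mul_apply, AlgEquiv.mul_apply, coe_resLocFun h]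
    congr 2
    exact Subtype.ext (coe_resLocFun h τ x).symm)

omit [Normal ℚ_[q] E'] in
theorem coe_resLoc (σ : E' ≃ₐ[ℚ_[q]] E') (x : E) :
    ((resLoc h σ x : E) : PadicAlgCl q) =
      ((σ (IntermediateField.inclusion h x) : E') : PadicAlgCl q) :=
  coe_resLocFun h σ x

theorem resLoc_restrict (τ : PadicAlgCl q ≃ₐ[ℚ_[q]] PadicAlgCl q) :
    resLoc h (AlgEquiv.restrictNormalHom E' τ) = AlgEquiv.restrictNormalHom E τ :=
  AlgEquiv.ext fun x => Subtype.ext (((coe_resLoc h _ x).trans
    (AlgEquiv.restrictNormal_commutes τ E' (IntermediateField.inclusion h x))).trans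
    (AlgEquiv.restrictNormal_commutes τ E x).symm)

theorem resLoc_surjective : Function.Surjective (resLoc h) := fun σ => by
  obtain ⟨τ, rfl⟩ := AlgEquiv.restrictNormalHom_surjective (K₁ := E) (PadicAlgCl q) σ
  exact ⟨_, resLoc_restrict h τ⟩

/-- The inclusion of multiplicative groups. -/
def inclLoc : Additive Eˣ →+ Additive E'ˣ :=
  MonoidHom.toAdditive (Units.map (IntermediateField.inclusion h).toRingHom.toMonoidHom)

omit [Normal ℚ_[q] E] [Normal ℚ_[q] E'] in
theorem inclLoc_injective : Function.Injective (inclLoc h) := fun _ _ e =>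
  Additive.toMul.injective (Units.ext ((IntermediateField.inclusion h).injective
    (congrArg (fun z : Additive E'ˣ => ((z.toMul : E'ˣ) : E')) e)))

omit [Normal ℚ_[q] E'] in
theorem smul_inclLoc (σ : E' ≃ₐ[ℚ_[q]] E') (x : Additive Eˣ) :
    σ • inclLoc h x = inclLoc h (resLoc h σ • x) :=
  Additive.toMul.injective (Units.ext (Subtype.ext (coe_resLoc h σ _).symm))

/-- The elements fixed by the kernel of the restriction come from the smaller field. -/
theorem exists_inclLoc_eq (a : Additive E'ˣ)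
    (ha : ∀ n : (resLoc h).ker, (n : E' ≃ₐ[ℚ_[q]] E') • a = a) : ∃ x, inclLoc h x = a := by
  have : IsGalois ℚ_[q] (PadicAlgCl q) := ⟨⟩
  set y : E' := ((a.toMul : E'ˣ) : E')
  have hy : (y : PadicAlgCl q) ∈ E := by
    rw [← InfiniteGalois.fixedField_fixingSubgroup E, IntermediateField.mem_fixedField_iff]
    intro τ hτ
    have hmem : AlgEquiv.restrictNormalHom E' τ ∈ (resLoc h).ker := by
      rw [MonoidHom.mem_ker, resLoc_restrict]
      exact AlgEquiv.ext fun x => Subtype.ext ((AlgEquiv.restrictNormal_commutes τ E x).trans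
        ((IntermediateField.mem_fixingSubgroup_iff _ _).1 hτ x x.2))
    have e := congrArg (fun z : Additive E'ˣ => (((z.toMul : E'ˣ) : E') : PadicAlgCl q))
      (ha ⟨_, hmem⟩)
    exact (AlgEquiv.restrictNormal_commutes τ E' y).symm.trans e
  exact ⟨Additive.ofMul (Units.mk0 ⟨y, hy⟩ fun h0 =>
    (a.toMul : E'ˣ).ne_zero (Subtype.ext (congrArg (fun v : E => (v : PadicAlgCl q)) h0))),
    Additive.toMul.injective (Units.ext rfl)⟩

end Restriction

/-! ### Residue fields and the unramified character -/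

section Residue

variable {E : IntermediateField ℚ_[q] (PadicAlgCl q)} [FiniteDimensional ℚ_[q] E]
  [Normal ℚ_[q] E]

omit [Normal ℚ_[q] E] in
theorem finrank_resField : finrank (ZMod q) (ResField E) = resDeg E := by
  apply Nat.pow_right_injective (Fact.out : q.Prime).two_le
  show q ^ _ = q ^ _
  rw [← card_resField, Module.natCard_eq_pow_finrank (K := ZMod q) (V := ResField E),
    Nat.card_zmod]

/-- The residue degree is the index of inertia. -/
theorem card_inertia_mul_resDeg :
    Nat.card (inertia E) * resDeg E = finrank ℚ_[q] E ∧ Function.Surjective (resAut E) := by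
  have : IsGalois ℚ_[q] E := ⟨⟩
  have hf : Nat.card (ResField E ≃ₐ[ZMod q] ResField E) = resDeg E := by
    rw [IsGalois.card_aut_eq_finrank, finrank_resField]
  have h1 := (resAut E).ker.card_mul_index
  rw [Subgroup.index_ker, IsGalois.card_aut_eq_finrank] at h1
  have h2 := finrank_fixedIn_mul (inertia E)
  have h3 := resDeg_dvd_finrank (fixedIn (inertia E))
  rw [resDeg_fixedIn_of_le (inertia E) le_rfl] at h3
  have h4 : finrank ℚ_[q] (fixedIn (inertia E)) = Nat.card (resAut E).range := by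
    apply Nat.eq_of_mul_eq_mul_left (Nat.card_pos (α := inertia E))
    rw [mul_comm, h2]
    exact h1.symm
  rw [h4] at h3
  have h5 : (resAut E).range = ⊤ := by
    apply Subgroup.eq_top_of_card_eq
    refine le_antisymm (Subgroup.card_le_card_group _) ?_
    rw [hf]
    exact Nat.le_of_dvd Nat.card_pos h3
  refine ⟨?_, MonoidHom.range_eq_top.mp h5⟩
  rw [← h1, h5, Subgroup.card_top, hf]
  rfl

theorem ordZ_natCast_self :
    ordZ E (Units.mk0 (q : E) (Nat.cast_ne_zero.mpr (Fact.out : q.Prime).ne_zero)) =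
      Nat.card (inertia E) := by
  apply mul_left_cancel₀ (Int.natCast_ne_zero.mpr (resDeg_pos E).ne')
  rw [ordZ, ← ordQFun_eq]
  show Multiplicative.toAdd (ordQ E _) = _
  rw [ordQ_natCast_self, toAdd_ofAdd, ← card_inertia_mul_resDeg.1, mul_comm, Nat.cast_mul]

omit [Normal ℚ_[q] E] [FiniteDimensional ℚ_[q] E] in
/-- Roots of unity of order prime to `q` with the same residue are equal. -/
theorem eq_one_of_norm_sub_one_lt {y : E} {M : ℕ} (hM : ¬ q ∣ M) (hy : y ^ M = 1)
    (h : ‖y - 1‖ < 1) : y = 1 := by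
  have hy1 : ‖y‖ ≤ 1 := by
    rw [show y = (y - 1) + 1 by ring]
    exact (IsUltrametricDist.norm_add_le_max _ _).trans (max_le h.le norm_one.le)
  set x : intRing E := ⟨y, hy1⟩
  have hx : resMap E x = 1 := by
    rw [← map_one (resMap E)]
    exact (resMap_eq_iff E).2 h
  have hs : resMap E (∑ i ∈ Finset.range M, x ^ i) ≠ 0 := by
    simp only [map_sum, map_pow, hx, one_pow, Finset.sum_const, Finset.card_range, nsmul_one]
    rw [← map_natCast (algebraMap (ZMod q) (ResField E)), _root_.map_ne_zero,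
      Ne, ZMod.natCast_eq_zero_iff]
    exact hM
  have hg : ((∑ i ∈ Finset.range M, x ^ i : intRing E) : E) * (y - 1) = 0 := by
    rw [AddSubmonoidClass.coe_finsetSum]
    simp only [SubmonoidClass.coe_pow]
    rw [geom_sum_mul, hy, sub_self]
  rcases mul_eq_zero.1 hg with h0 | h0
  · exact absurd (by rw [show (∑ i ∈ Finset.range M, x ^ i) = 0 from Subtype.ext h0, map_zero]) hs
  · exact sub_eq_zero.1 h0

omit [Normal ℚ_[q] E] [FiniteDimensional ℚ_[q] E] in
/-- Roots of unity have norm `1`. -/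
theorem norm_eq_one_of_pow_eq_one {y : E} {M : ℕ} (hM : M ≠ 0) (hy : y ^ M = 1) : ‖y‖ = 1 := by
  have := congrArg norm hy
  rw [norm_pow, norm_one] at this
  exact (pow_eq_one_iff_of_nonneg (norm_nonneg _) hM).1 this

omit [Normal ℚ_[q] E] [FiniteDimensional ℚ_[q] E] in
theorem resMap_inj_of_pow_eq_one {x y : intRing E} {M : ℕ} (hM : ¬ q ∣ M) (hx : x ^ M = 1)
    (hy : y ^ M = 1) (h : resMap E x = resMap E y) : x = y := by
  have hM0 : M ≠ 0 := fun h0 => hM (h0 ▸ dvd_zero q)
  have hy' : (y : E) ^ M = 1 := congrArg Subtype.val hy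
  have hx' : (x : E) ^ M = 1 := congrArg Subtype.val hx
  have hyn := norm_eq_one_of_pow_eq_one hM0 hy'
  have hy0 : (y : E) ≠ 0 := fun h0 => by rw [h0, norm_zero] at hyn; exact zero_ne_one hyn
  refine Subtype.ext ((div_eq_one_iff_eq hy0).1 (eq_one_of_norm_sub_one_lt hM ?_ ?_))
  · rw [div_pow, hx', hy', div_one]
  · rw [div_sub_one hy0, norm_div, hyn, div_one]
    exact (resMap_eq_iff E).1 h

/-- The unramified character of order `n` attached to a root of unity of order `q ^ n - 1`. -/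
theorem exists_unramified_char {n : ℕ} [NeZero n] {ζ : E}
    (hζ : IsPrimitiveRoot ζ (q ^ n - 1)) :
    ∃ χ : (E ≃ₐ[ℚ_[q]] E) →* Multiplicative (ZMod n), inertia E ≤ χ.ker ∧
      (∃ γ, χ γ = Multiplicative.ofAdd 1) ∧ ∀ g, χ g = 1 → g ζ = ζ := by
  classical
  set M := q ^ n - 1 with hMdef
  have hq1 : 1 < q := (Fact.out : q.Prime).one_lt
  have hqn := Nat.one_lt_pow (NeZero.ne n) hq1
  have hM0 : M ≠ 0 := by omega
  have hqM : ¬ q ∣ M := fun hdvd => by
    have h1 : q ∣ q ^ n - M := Nat.dvd_sub (dvd_pow_self q (NeZero.ne n)) hdvd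
    rw [show q ^ n - M = 1 by omega] at h1
    exact absurd (Nat.le_of_dvd one_pos h1) (by omega)
  set x : intRing E := ⟨ζ, (norm_eq_one_of_pow_eq_one hM0 hζ.pow_eq_one).le⟩
  have hxM : x ^ M = 1 := Subtype.ext hζ.pow_eq_one
  -- The residue Galois group is generated by Frobenius `Φ`; `ζ` makes `n` divide its order.
  set Φ := FiniteField.frobeniusAlgEquivOfAlgebraic (ZMod q) (ResField E)
  have hΦ : ∀ (i : ℕ) (c : ResField E), (Φ ^ i) c = c ^ q ^ i := fun i c => by
    induction i with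
    | zero => simp
    | succ i ih =>
      rw [pow_succ', AlgEquiv.mul_apply, ih]
      show Φ (c ^ q ^ i) = _
      simp [Φ, ZMod.card, ← pow_mul, ← pow_succ]
  have hsur : ∀ c, ∃ i : ℕ, c = Φ ^ i := fun c => by
    obtain ⟨i, hi⟩ := (FiniteField.bijective_frobeniusAlgEquivOfAlgebraic_pow (ZMod q)
      (ResField E)).2 c
    exact ⟨i, hi.symm⟩
  have hdvd : n ∣ orderOf Φ := by
    have h1 : x ^ q ^ orderOf Φ = x := resMap_inj_of_pow_eq_one hqM
      (by rw [← pow_mul, mul_comm, pow_mul, hxM, one_pow]) hxM (by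
        rw [map_pow, ← hΦ, pow_orderOf_eq_one, AlgEquiv.one_apply])
    have h2 : ζ ^ q ^ orderOf Φ = ζ := congrArg Subtype.val h1
    have hqo := Nat.one_le_pow (orderOf Φ) q (by omega)
    have h3 : M ∣ q ^ orderOf Φ - 1 :=
      hζ.dvd_of_pow_eq_one _ (mul_left_injective₀ (hζ.ne_zero hM0) (by
      show ζ ^ (q ^ orderOf Φ - 1) * ζ = 1 * ζ
      rw [← pow_succ, Nat.sub_add_cancel hqo, h2, one_mul]))
    have h4 := Nat.gcd_eq_left h3
    rw [hMdef, Nat.pow_sub_one_gcd_pow_sub_one] at h4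
    have h5 : q ^ Nat.gcd n (orderOf Φ) = q ^ n := by
      have := Nat.one_le_pow (Nat.gcd n (orderOf Φ)) q (by omega)
      omega
    exact Nat.gcd_eq_left_iff_dvd.mp (Nat.pow_right_injective hq1 h5)
  -- So the exponent of `Φ` modulo `n` is a character trivial on inertia.
  choose i hi using fun g : E ≃ₐ[ℚ_[q]] E => hsur (resAut E g)
  have hcast : ∀ a b : ℕ, Φ ^ a = Φ ^ b → (a : ZMod n) = b := fun a b h =>
    (ZMod.natCast_eq_natCast_iff' a b n).2 ((pow_eq_pow_iff_modEq.1 h).of_dvd hdvd)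
  let χ : (E ≃ₐ[ℚ_[q]] E) →* Multiplicative (ZMod n) :=
    MonoidHom.mk' (fun g => Multiplicative.ofAdd (i g : ZMod n)) fun g g' => by
      rw [← ofAdd_add, ← Nat.cast_add]
      exact congrArg _ (hcast _ _ (by rw [← hi, map_mul, hi g, hi g', pow_add]))
  refine ⟨χ, fun g hg => ?_, ?_, fun g hg => ?_⟩
  · rw [MonoidHom.mem_ker]
    show Multiplicative.ofAdd (i g : ZMod n) = 1
    rw [hcast (i g) 0 (by rw [← hi, pow_zero]; exact hg), Nat.cast_zero, ofAdd_zero]
  · obtain ⟨γ, hγ⟩ := (card_inertia_mul_resDeg (E := E)).2 Φ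
    exact ⟨γ, congrArg Multiplicative.ofAdd
      ((hcast (i γ) 1 (by rw [← hi, pow_one, hγ])).trans Nat.cast_one)⟩
  -- It detects the action on `ζ`, which is determined by its residue.
  · obtain ⟨k, hk⟩ := (ZMod.natCast_eq_zero_iff (i g) n).1
      (Multiplicative.ofAdd.injective (hg.trans ofAdd_zero.symm))
    have h1 : galInt g x = x ^ q ^ i g := resMap_inj_of_pow_eq_one hqM
      (by rw [← map_pow, hxM, map_one])
      (by rw [← pow_mul, mul_comm, pow_mul, hxM, one_pow])
      (by rw [← resAut_resMap, hi, hΦ, map_pow])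
    have h2 : M ∣ q ^ i g - 1 := by
      have := Nat.sub_dvd_pow_sub_pow (q ^ n) 1 k
      rwa [one_pow, ← pow_mul, ← hk] at this
    have h3 := congrArg Subtype.val h1
    rw [coe_galInt, SubmonoidClass.coe_pow] at h3
    obtain ⟨j, hj⟩ := h2
    have := Nat.one_le_pow (i g) q (by omega)
    rw [show g ζ = ζ ^ q ^ i g from h3, ← Nat.sub_add_cancel this, pow_succ, hj, pow_mul,
      hζ.pow_eq_one, one_pow, one_mul]

end Residue

variable (E : IntermediateField ℚ_[q] (PadicAlgCl q)) [FiniteDimensional ℚ_[q] E]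
  [Normal ℚ_[q] E] (p : ℕ) [hp : Fact p.Prime]

/-! ### The class -/

omit [FiniteDimensional ℚ_[q] E] hp in
/-- Adjoining a root of unity keeps an extension normal. -/
private theorem normal_sup_adjoin {z : PadicAlgCl q} {M : ℕ} [NeZero M]
    (hz : IsPrimitiveRoot z M) :
    Normal ℚ_[q] (E ⊔ IntermediateField.adjoin ℚ_[q] ({z} : Set (PadicAlgCl q)) :
      IntermediateField ℚ_[q] (PadicAlgCl q)) := by
  refine IntermediateField.normal_iff_forall_map_le'.mpr fun τ => ?_
  rw [IntermediateField.map_sup, IntermediateField.adjoin_map]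
  refine sup_le (le_sup_of_le_left ?_) (le_sup_of_le_right
    (IntermediateField.adjoin_le_iff.mpr ?_))
  · exact IntermediateField.normal_iff_forall_map_le'.mp ‹Normal ℚ_[q] E› τ
  · rintro _ ⟨y, rfl, rfl⟩
    obtain ⟨j, -, hj⟩ := hz.eq_pow_of_pow_eq_one
      (show (τ.toAlgHom y) ^ M = 1 by rw [← map_pow, hz.pow_eq_one, map_one])
    have hz1 : y ∈ IntermediateField.adjoin ℚ_[q] ({y} : Set (PadicAlgCl q)) :=
      IntermediateField.subset_adjoin ℚ_[q] _ (Set.mem_singleton y)
    rw [← hj]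
    exact pow_mem hz1 j

omit [FiniteDimensional ℚ_[q] E] hp in
/-- An automorphism of `E(z)` trivial on `E` and on `z` is trivial. -/
private theorem eq_one_of_res_eq_one {E' : IntermediateField ℚ_[q] (PadicAlgCl q)}
    [Normal ℚ_[q] E'] (h : E ≤ E') {z : PadicAlgCl q}
    (hE' : E' ≤ E ⊔ IntermediateField.adjoin ℚ_[q] ({z} : Set (PadicAlgCl q))) (hz : z ∈ E')
    {g : E' ≃ₐ[ℚ_[q]] E'} (hg : resLoc h g = 1) (hgz : g ⟨z, hz⟩ = ⟨z, hz⟩) : g = 1 := by
  obtain ⟨τ, rfl⟩ := AlgEquiv.restrictNormalHom_surjective (K₁ := E') (PadicAlgCl q) g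
  rw [resLoc_restrict] at hg
  have hmem : ∀ w, τ w = w → w ∈ IntermediateField.fixedField (Subgroup.zpowers τ) :=
    fun w hw => (IntermediateField.mem_fixedField_iff _ w).2 fun g' hg' =>
      (Subgroup.zpowers_le.mpr (MulAction.mem_stabilizer_iff.2 hw :
        τ ∈ MulAction.stabilizer (PadicAlgCl q ≃ₐ[ℚ_[q]] PadicAlgCl q) w)) hg'
  have hle2 : E' ≤ IntermediateField.fixedField (Subgroup.zpowers τ) := by
    refine hE'.trans (sup_le (fun w hw => hmem w ?_) (IntermediateField.adjoin_le_iff.mpr ?_))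
    · have e1 : ((AlgEquiv.restrictNormalHom E τ ⟨w, hw⟩ : E) : PadicAlgCl q) = τ w :=
        AlgEquiv.restrictNormal_commutes τ E ⟨w, hw⟩
      rw [hg, AlgEquiv.one_apply] at e1
      exact e1.symm
    · rintro w rfl
      exact hmem w ((AlgEquiv.restrictNormal_commutes τ E' ⟨w, hz⟩).symm.trans
        (congrArg Subtype.val hgz))
  exact AlgEquiv.ext fun w => Subtype.ext ((AlgEquiv.restrictNormal_commutes τ E' w).trans
    ((IntermediateField.mem_fixedField_iff _ _).1 (hle2 w.2) τ (Subgroup.mem_zpowers τ)))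

omit hp in
/-- The carry cocycle of an unramified character at a multiple `c` of `q` is a coboundary only
when its order divides `c`. -/
private theorem dvd_of_isCoboundary_carryN {n : ℕ} [NeZero n]
    {χ : (E ≃ₐ[ℚ_[q]] E) →* Multiplicative (ZMod n)} (hI : inertia E ≤ χ.ker)
    {γ : E ≃ₐ[ℚ_[q]] E} (hγ : χ γ = Multiplicative.ofAdd 1) {c : ℤ}
    (hc : IsCoboundary₂ (carryN χ (c • (Additive.ofMul
      (Units.mk0 (q : E) (Nat.cast_ne_zero.mpr (Fact.out : q.Prime).ne_zero)))))) :
    (n : ℤ) ∣ c := by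
  classical
  rcases Nat.lt_or_ge 1 n with hn1 | hn1
  swap
  · rw [show n = 1 from le_antisymm hn1 (NeZero.pos n)]
    exact one_dvd _
  obtain ⟨b, hb⟩ := hc
  obtain ⟨w, hw, e⟩ := exists_eq_norm_of_carryN' hn1 hγ b hb fun h => h1Zero_units χ.ker _ h
  -- compare the orders: that of a norm is divisible by `n` times that of a uniformiser
  have hwd : (Nat.card (inertia E) : ℤ) ∣ ordZ E w.toMul := by
    have := card_inf_inertia_dvd_ordZ χ.ker (x := w.toMul)
      fun g => congrArg Additive.toMul (hw g g.2)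
    rwa [inf_eq_right.2 hI] at this
  have e1 := congrArg (fun a : Additive Eˣ => ordZ E a.toMul) e
  simp only [toMul_zsmul, toMul_sum_units, ordZ_zpow, toMul_ofMul] at e1
  rw [ordZ_natCast_self] at e1
  have e2 : ordZ E (∏ i ∈ Finset.range n, (γ ^ i • w).toMul) = n * ordZ E w.toMul := by
    show Multiplicative.toAdd (ord E _) = _
    simp only [map_prod, galUnits_smul_toMul, ord_smul_unit, Finset.prod_const, Finset.card_range,
      toAdd_pow, nsmul_eq_mul]
    rfl
  rw [e2] at e1
  obtain ⟨j, hj⟩ := hwd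
  refine ⟨j, mul_right_cancel₀ (Int.natCast_ne_zero.mpr (Nat.card_pos (α := inertia E)).ne') ?_⟩
  rw [e1, hj]; ring

/-- The preimage of a Sylow subgroup under restriction. -/
private theorem card_comap_eq {G Q : Type*} [Group G] [Group Q] [Finite Q] (π : G →* Q)
    (hπ : Function.Surjective π) (P : Subgroup Q) :
    Nat.card (P.comap π) = Nat.card π.ker * Nat.card P := by
  have h1 := (P.comap π).card_mul_index
  rw [Subgroup.index_comap_of_surjective _ hπ] at h1
  have h2 := π.ker.card_mul_index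
  rw [Subgroup.index_ker, MonoidHom.range_eq_top.mpr hπ, Subgroup.card_top,
    ← P.card_mul_index] at h2
  apply Nat.eq_of_mul_eq_mul_right (Nat.pos_of_ne_zero (Subgroup.index_ne_zero_of_finite (H := P)))
  rw [h1, ← h2, mul_assoc]

/-- The fundamental class of a local field. -/
theorem exists_fundamental_local :
    ∃ u : NormCocycle (E ≃ₐ[ℚ_[q]] E) (Additive Eˣ), IsClassFormation p u := by
  classical
  have hA := stepAxioms_local q E p
  -- `n` is the order of a Sylow `p`-subgroup
  obtain ⟨P₀⟩ := (inferInstance : Nonempty (Sylow p (E ≃ₐ[ℚ_[q]] E)))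
  obtain ⟨k, hk⟩ := IsPGroup.iff_card.mp P₀.isPGroup'
  set n := p ^ k
  have : NeZero n := ⟨pow_ne_zero _ hp.out.ne_zero⟩
  have hnP : ∀ P : Sylow p (E ≃ₐ[ℚ_[q]] E), Nat.card (P : Subgroup (E ≃ₐ[ℚ_[q]] E)) = n :=
    fun P => by rw [P.card_eq_multiplicity, ← P₀.card_eq_multiplicity, hk]
  -- `E2 = E(z)` with `z` of order `q ^ n - 1`, carrying an unramified character of order `n`
  set M := q ^ n - 1 with hMdef
  have hqn := Nat.one_lt_pow (NeZero.ne n) (Fact.out : q.Prime).one_lt
  have hM0 : M ≠ 0 := by omega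
  have : NeZero M := ⟨hM0⟩
  have : NeZero (M : PadicAlgCl q) := ⟨Nat.cast_ne_zero.mpr hM0⟩
  obtain ⟨z, hz⟩ := HasEnoughRootsOfUnity.exists_primitiveRoot (PadicAlgCl q) M
  set E2 := E ⊔ IntermediateField.adjoin ℚ_[q] ({z} : Set (PadicAlgCl q)) with hE2
  have : FiniteDimensional ℚ_[q] (IntermediateField.adjoin ℚ_[q] ({z} : Set (PadicAlgCl q))) :=
    IntermediateField.adjoin.finiteDimensional (Algebra.IsIntegral.isIntegral z)
  have : FiniteDimensional ℚ_[q] E2 := IntermediateField.finiteDimensional_sup _ _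
  have : Normal ℚ_[q] E2 := normal_sup_adjoin E hz
  have hle : E ≤ E2 := le_sup_left
  have hzle : IntermediateField.adjoin ℚ_[q] ({z} : Set (PadicAlgCl q)) ≤ E2 := le_sup_right
  set ζ : E2 := ⟨z, hzle (IntermediateField.subset_adjoin ℚ_[q] _ (Set.mem_singleton z))⟩
  have hζ : IsPrimitiveRoot ζ M :=
    IsPrimitiveRoot.of_map_of_injective (f := E2.val) hz E2.val.injective
  obtain ⟨χ, hI, ⟨γ, hγ⟩, hfix⟩ := exists_unramified_char hζ
  set π := resLoc hle
  have : Fintype π.ker := Fintype.ofFinite _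
  have hinj : ∀ g ∈ π.ker, χ g = 1 → g = 1 := fun g hg hg1 =>
    eq_one_of_res_eq_one E hle (z := z) le_rfl ζ.2 hg (hfix g hg1)
  have hq0 : (q : E2) ≠ 0 := Nat.cast_ne_zero.mpr (Fact.out : q.Prime).ne_zero
  set x : Additive E2ˣ := Additive.ofMul (Units.mk0 (q : E2) hq0)
  have hx : ∀ g : E2 ≃ₐ[ℚ_[q]] E2, g • x = x := fun g =>
    Additive.toMul.injective (Units.ext (map_natCast g q))
  -- `q` is a norm from the kernel
  have hxN : ∃ w, normSum π.ker (Additive E2ˣ) w = x := by
    set G₁ := (P₀ : Subgroup (E ≃ₐ[ℚ_[q]] E)).comap π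
    have hcard : Nat.card G₁ = Nat.card π.ker * n := by
      rw [card_comap_eq π (resLoc_surjective hle), hnP P₀]
    obtain ⟨w, hw⟩ := exists_normHom_eq_of_base_change (n := n) G₁ π.ker χ.ker
      (MonoidHom.ker_le_comap _ _) (fun g hg => by
        rw [MonoidHom.mem_ker, map_pow, ← hnP P₀]
        exact congrArg Subtype.val
          (pow_card_eq_one' (x := (⟨π g, hg⟩ : (P₀ : Subgroup (E ≃ₐ[ℚ_[q]] E))))))
      (fun g _ => by
        rw [MonoidHom.mem_ker, map_pow]
        have h := pow_card_eq_one' (x := χ g)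
        rwa [Nat.card_congr Multiplicative.toAdd, Nat.card_zmod] at h)
      (eq_bot_iff.2 fun g hg => hinj g hg.1 hg.2) (inf_le_right.trans hI) hcard
      (x := Units.mk0 (q : E2) hq0) fun g => Units.ext (map_natCast (g : E2 ≃ₐ[ℚ_[q]] E2) q)
    refine ⟨Additive.ofMul w, ?_⟩
    rw [normSum, show x = Additive.ofMul (Units.mk0 (q : E2) hq0) from rfl, ← hw]
    exact (ofMul_prod _ _).symm
  -- the class has order `n`
  have hord : ∀ c : ℤ, IsCoboundary₂ (carryN χ (c • x)) → (n : ℤ) ∣ c := fun c hc =>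
    dvd_of_isCoboundary_carryN E2 hI hγ hc
  obtain ⟨u, hu⟩ := exists_normCocycle_of_carry π (resLoc_surjective hle) (inclLoc hle)
    (inclLoc_injective hle) (smul_inclLoc hle) (exists_inclLoc_eq hle) hnP χ
    (h1Zero_units π.ker) hx hxN hord
  exact ⟨u, hA.isClassFormation u hu⟩

end Fermat.Agent.CFT.Local
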