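import Mathlib.GroupTheory.Index
import Mathlib.Tactic.LinearCombination
import Mathlib.Tactic.Ring

/-!
# Herbrand quotient and power index by an open subgroup

For two endomorphisms `d`, `N` of a commutative group with `d N = N d = 1`, the indices
`[ker d : im N]` and `[ker N : im d]` agree as soon as they do on a subgroup `V` of finite index
where both are `1`.
-/

set_option autoImplicit false

namespace Fermat.Agent.CFT.Local

variable {A B : Type*} [CommGroup A] [CommGroup B]

/-- `[A : V] = [f A : f V] · [ker f : V ∩ ker f]`. -/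
theorem index_eq_relIndex_map_mul (f : A →* B) (V : Subgroup A) :
    V.index = (V.map f).relIndex f.range * (V ⊓ f.ker).relIndex f.ker := by
  rw [MonoidHom.range_eq_map, Subgroup.relIndex_map_map, top_sup_eq, Subgroup.relIndex_top_right,
    mul_comm, ← Subgroup.relIndex_mul_index (le_sup_left : V ≤ V ⊔ f.ker),
    Subgroup.relIndex_sup_left, Subgroup.inf_relIndex_right]

/-- `[ker d : im N] = [ker N : im d]` for a module with a subgroup of finite index where both
indices are `1`. -/
theorem relIndex_range_ker_eq (d N : A →* A) (hdN : ∀ x, d (N x) = 1) (hNd : ∀ x, N (d x) = 1)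
    (V : Subgroup A) (hV : V.index ≠ 0) (hdV : V.map d ≤ V) (hNV : V.map N ≤ V)
    (h₁ : V ⊓ d.ker ≤ V.map N) (h₂ : V ⊓ N.ker ≤ V.map d) :
    N.range.relIndex d.ker = d.range.relIndex N.ker ∧ N.range.relIndex d.ker ≠ 0 := by
  have eN : V.map N = V ⊓ d.ker :=
    le_antisymm (le_inf hNV (by rintro _ ⟨x, -, rfl⟩; exact hdN x)) h₁
  have ed : V.map d = V ⊓ N.ker :=
    le_antisymm (le_inf hdV (by rintro _ ⟨x, -, rfl⟩; exact hNd x)) h₂
  have hrd : N.range ≤ d.ker := by rintro _ ⟨x, rfl⟩; exact hdN x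
  have hrN : d.range ≤ N.ker := by rintro _ ⟨x, rfl⟩; exact hNd x
  have hmap : ∀ f : A →* A, V.map f ≤ f.range := fun f => by
    rw [MonoidHom.range_eq_map]; exact Subgroup.map_mono le_top
  have e1 := index_eq_relIndex_map_mul d V
  have e2 := index_eq_relIndex_map_mul N V
  rw [← eN, ← Subgroup.relIndex_mul_relIndex _ _ _ (hmap N) hrd] at e1
  rw [← ed, ← Subgroup.relIndex_mul_relIndex _ _ _ (hmap d) hrN] at e2
  have hne1 : (V.map d).relIndex d.range ≠ 0 := fun h => hV (by rw [e1, h, zero_mul])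
  have hne2 : (V.map N).relIndex N.range ≠ 0 := fun h => hV (by rw [e2, h, zero_mul])
  refine ⟨?_, fun h => hV (by rw [e1, h, mul_zero, mul_zero])⟩
  have := e1.symm.trans e2
  apply mul_left_cancel₀ (mul_ne_zero hne1 hne2)
  linear_combination this

/-- The index of the image of an endomorphism, from a subgroup of finite index on which it is
injective. -/
theorem index_range_eq (f : A →* A) (V : Subgroup A) (hV : V.index ≠ 0) (hfV : V.map f ≤ V)
    (hinj : V ⊓ f.ker = ⊥) :
    f.range.index = (V.map f).relIndex V * Nat.card f.ker := by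
  have hmap : V.map f ≤ f.range := by
    rw [MonoidHom.range_eq_map]; exact Subgroup.map_mono le_top
  have e1 := index_eq_relIndex_map_mul f V
  rw [hinj, Subgroup.relIndex_bot_left] at e1
  have h1 := Subgroup.relIndex_mul_index hmap
  have h2 := Subgroup.relIndex_mul_index hfV
  have hne : (V.map f).relIndex f.range ≠ 0 := fun h => hV (by rw [e1, h, zero_mul])
  apply mul_left_cancel₀ hne
  calc (V.map f).relIndex f.range * f.range.index = (V.map f).relIndex V * V.index :=
    h1.trans h2.symm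
    _ = _ := by rw [e1]; ring

/-- The index formula inside a subgroup. -/
theorem relIndex_eq_map_mul (f : A →* B) {V C : Subgroup A} (h : V ≤ C) :
    V.relIndex C = (V.map f).relIndex (C.map f) * (V ⊓ f.ker).relIndex (C ⊓ f.ker) := by
  have hC : ((f.comp C.subtype).ker).map C.subtype = C ⊓ f.ker := by
    ext x
    simp [MonoidHom.mem_ker, Subgroup.mem_map, and_comm]
  have hV : ((V.subgroupOf C) ⊓ (f.comp C.subtype).ker).map C.subtype = V ⊓ f.ker := by
    ext x
    simp only [Subgroup.mem_map, Subgroup.mem_inf, Subgroup.mem_subgroupOf, MonoidHom.mem_ker,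
      MonoidHom.comp_apply, Subgroup.coe_subtype]
    exact ⟨by rintro ⟨y, hy, rfl⟩; exact hy, fun hx => ⟨⟨x, h hx.1⟩, hx, rfl⟩⟩
  have := index_eq_relIndex_map_mul (f.comp C.subtype) (V.subgroupOf C)
  rw [← Subgroup.relIndex_map_map_of_injective _ (f.comp C.subtype).ker C.subtype_injective,
    hC, hV, MonoidHom.range_comp, Subgroup.range_subtype, ← Subgroup.map_map,
    Subgroup.subgroupOf_map_subtype, inf_eq_left.mpr h] at this
  exact this

/-- `relIndex_range_ker_eq` inside a subgroup `U`. -/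
theorem relIndex_map_inf_ker_eq (U : Subgroup A) (d N : A →* A) (hdU : U.map d ≤ U)
    (hNU : U.map N ≤ U) (hdN : ∀ x ∈ U, d (N x) = 1) (hNd : ∀ x ∈ U, N (d x) = 1)
    (V : Subgroup A) (hVU : V ≤ U) (hV : V.relIndex U ≠ 0) (hdV : V.map d ≤ V) (hNV : V.map N ≤ V)
    (h₁ : V ⊓ d.ker ≤ V.map N) (h₂ : V ⊓ N.ker ≤ V.map d) :
    (U.map N).relIndex (U ⊓ d.ker) = (U.map d).relIndex (U ⊓ N.ker) ∧
      (U.map N).relIndex (U ⊓ d.ker) ≠ 0 := by
  have hN' : ∀ x ∈ U, N x ∈ U := fun x hx => hNU ⟨x, hx, rfl⟩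
  have hd' : ∀ x ∈ U, d x ∈ U := fun x hx => hdU ⟨x, hx, rfl⟩
  let d₀ : U →* U := (d.comp U.subtype).codRestrict U fun x => hd' x x.2
  let N₀ : U →* U := (N.comp U.subtype).codRestrict U fun x => hN' x x.2
  have hr : ∀ (f : A →* A) (f₀ : U →* U), (∀ x, (f₀ x : A) = f x) →
      f₀.range.map U.subtype = U.map f ∧ f₀.ker.map U.subtype = U ⊓ f.ker ∧
      ((V.subgroupOf U).map f₀).map U.subtype = V.map f := by
    intro f f₀ hf
    refine ⟨?_, ?_, ?_⟩
    · rw [MonoidHom.map_range, show U.subtype.comp f₀ = f.comp U.subtype from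
        MonoidHom.ext hf, MonoidHom.range_comp, Subgroup.range_subtype]
    · ext x
      simp only [Subgroup.mem_map, Subgroup.mem_inf, MonoidHom.mem_ker, Subgroup.coe_subtype]
      constructor
      · rintro ⟨y, hy, rfl⟩
        exact ⟨y.2, by rw [← hf, hy]; rfl⟩
      · rintro ⟨hx, hx'⟩
        exact ⟨⟨x, hx⟩, Subtype.ext (by rw [hf]; exact hx'), rfl⟩
    · rw [Subgroup.map_map, show U.subtype.comp f₀ = f.comp U.subtype from MonoidHom.ext hf,
        ← Subgroup.map_map, Subgroup.subgroupOf_map_subtype, inf_eq_left.mpr hVU]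
  obtain ⟨hrd, hkd, hVd⟩ := hr d d₀ fun _ => rfl
  obtain ⟨hrN, hkN, hVN⟩ := hr N N₀ fun _ => rfl
  have hinj := U.subtype_injective
  have hsub : (V.subgroupOf U).map U.subtype = V := by
    rw [Subgroup.subgroupOf_map_subtype, inf_eq_left.mpr hVU]
  have := relIndex_range_ker_eq d₀ N₀ (fun x => Subtype.ext (hdN x x.2))
    (fun x => Subtype.ext (hNd x x.2)) (V.subgroupOf U) hV
    ((Subgroup.map_le_map_iff_of_injective hinj).mp (by rw [hVd, hsub]; exact hdV))
    ((Subgroup.map_le_map_iff_of_injective hinj).mp (by rw [hVN, hsub]; exact hNV))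
    ((Subgroup.map_le_map_iff_of_injective hinj).mp (by
      rw [hVN, Subgroup.map_inf _ _ _ hinj, hsub, hkd]
      exact le_trans (inf_le_inf_left V inf_le_right) h₁))
    ((Subgroup.map_le_map_iff_of_injective hinj).mp (by
      rw [hVd, Subgroup.map_inf _ _ _ hinj, hsub, hkN]
      exact le_trans (inf_le_inf_left V inf_le_right) h₂))
  rw [← Subgroup.relIndex_map_map_of_injective _ d₀.ker hinj,
    ← Subgroup.relIndex_map_map_of_injective _ N₀.ker hinj, hrd, hrN, hkd, hkN] at this
  exact this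

end Fermat.Agent.CFT.Local
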